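import Fermat.Agent.S14.Count.Phi

set_option autoImplicit false
set_option linter.unusedSectionVars false
set_option linter.unusedVariables false

/-!
# S14 / ST3: bases of `IsSU0`-elements and the auxiliary set `T`
-/

namespace Fermat.Agent.S14

open IsDedekindDomain NumberField

variable {p : ℕ} [Fact p.Prime] {K : Type*} [Field K] [NumberField K]
  [IsCyclotomicExtension {p} ℚ K]

/-! ### closure properties of `IsSU0` -/

lemma isSU0_one (St : Finset (Pl K)) : IsSU0 p St (1 : K) :=
  ⟨one_ne_zero, fun v _ _ => ord_one v, fun v _ => by rw [ord_one]; exact dvd_zero _⟩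

lemma IsSU0.mul {St : Finset (Pl K)} {u w : K} (hu : IsSU0 p St u) (hw : IsSU0 p St w) :
    IsSU0 p St (u * w) := by
  refine ⟨mul_ne_zero hu.1 hw.1, fun v h1 h2 => ?_, fun v h => ?_⟩
  · rw [ord_mul v hu.1 hw.1, hu.2.1 v h1 h2, hw.2.1 v h1 h2]; rfl
  · rw [ord_mul v hu.1 hw.1]; exact dvd_add (hu.2.2 v h) (hw.2.2 v h)

lemma IsSU0.pow {St : Finset (Pl K)} {u : K} (hu : IsSU0 p St u) (n : ℕ) :
    IsSU0 p St (u ^ n) := by
  induction n with
  | zero => simpa using isSU0_one St
  | succ n ih => rw [pow_succ]; exact ih.mul hu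

lemma IsSU0.prod {St : Finset (Pl K)} {ι : Type*} (s : Finset ι) (f : ι → K)
    (hf : ∀ i ∈ s, IsSU0 p St (f i)) : IsSU0 p St (∏ i ∈ s, f i) := by
  classical
  induction s using Finset.induction_on with
  | empty => simpa using isSU0_one St
  | insert a s ha ih =>
    rw [Finset.prod_insert ha]
    exact (hf a (Finset.mem_insert_self a s)).mul (ih fun i hi => hf i (Finset.mem_insert_of_mem hi))

lemma LocPow.prod {F : Type*} [Field F] [NumberField F] {v : Pl F} {n : ℕ} {ι : Type*}
    (s : Finset ι) (f : ι → F) (hf : ∀ i ∈ s, LocPow p v n (f i)) :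
    LocPow p v n (∏ i ∈ s, f i) := by
  classical
  induction s using Finset.induction_on with
  | empty => simpa using locPow_one v n
  | insert a s ha ih =>
    rw [Finset.prod_insert ha]
    exact (hf a (Finset.mem_insert_self a s)).mul (ih fun i hi => hf i (Finset.mem_insert_of_mem hi))

theorem SurjOn.insert {ζ : K} (hζ : IsPrimitiveRoot ζ p) {St T : Finset (Pl K)}
    (h : SurjOn p St T) {v0 : Pl K} (hv0 : ¬ Above p v0) (hv0St : v0 ∉ St) (hv0T : v0 ∉ T)
    {x : K} (hx : IsSU0 p St x) (hxT : ∀ v ∈ T, LocPow p v 1 x) (hx0 : ¬ LocPow p v0 1 x) :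
    SurjOn p St (Finset.cons v0 T hv0T) := by
  have hpp : p.Prime := Fact.out
  intro c hc
  obtain ⟨u, hu, huT⟩ := h c (fun v hv => hc v (Finset.mem_cons_of_mem hv))
  have hc0 := hc v0 (Finset.mem_cons_self v0 T)
  obtain ⟨e, -, he⟩ := exists_pow_mul_locPow hpp hζ v0 hv0 hx.1 (hx.2.1 v0 hv0St hv0) hx0
    (mul_ne_zero hu.1 hc0.1) (by rw [ord_mul _ hu.1 hc0.1, hu.2.1 v0 hv0St hv0, hc0.2]; rfl)
  refine ⟨x ^ e * u, (hx.pow e).mul hu, fun v hv => ?_⟩
  rcases Finset.mem_cons.mp hv with rfl | hvT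
  · rw [mul_assoc]; exact he
  · rw [mul_assoc]; exact ((hxT v hvT).pow e).mul (huT v hvT)

/-! ### the functional `ord_λ mod p` -/

open Classical in
/-- indicator function of a place. -/
noncomputable def indPl (p : ℕ) {F : Type*} [Field F] [NumberField F] (v0 : Pl F) :
    Pl F → ZMod p := fun v => if v = v0 then 1 else 0

lemma pair_indPl {F : Type*} [Field F] [NumberField F] (v0 : Pl F) (x : F) :
    pair (indPl p v0) x = ((ord v0 x : ℤ) : ZMod p) := by
  rw [pair_eq_sum (indPl p v0) x {v0} (fun v hv => Or.inr (by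
    have : v ≠ v0 := by simpa using hv
    simp [indPl, this]))]
  simp [indPl]

lemma cls_comp_append {F : Type*} [Field F] {d e : ℕ} (x : Fin d → F) (y : Fin e → F) :
    (fun i => cls p (Fin.append x y i)) = Fin.append (fun i => cls p (x i)) (fun j => cls p (y j)) := by
  funext i
  refine Fin.addCases (fun i => ?_) (fun j => ?_) i <;> simp

/-- Extension of an independent family of `IsSU0`-elements to one of full size. -/
theorem exists_su0_basis (hp : p ≠ 2) {ζ : K} (hζ : IsPrimitiveRoot ζ p) (St : Finset (Pl K))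
    (hSt : ∀ v ∈ St, ¬ Above p v) {d : ℕ} (x : Fin d → K) (hx : ∀ i, IsSU0 p St (x i))
    (hind : IndepModP p x) :
    ∃ (e : ℕ) (y : Fin e → K), d + e = (p - 1) / 2 + St.card ∧ (∀ j, IsSU0 p St (y j)) ∧
      IndepModP p (Fin.append x y) := by
  classical
  have hpp : p.Prime := Fact.out
  obtain ⟨lam, hlam, hlamu, hlam1, hlam0, -, -⟩ := exists_lam hζ
  have hlamSt : lam ∉ St := fun h => hSt lam h hlam
  have hz0 : (1 - ζ) ≠ 0 := sub_ne_zero.mpr (hζ.ne_one hpp.one_lt).symm
  set S' : Finset (Pl K) := insert lam St with hS'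
  have hS'card : S'.card = St.card + 1 := Finset.card_insert_of_notMem hlamSt
  have hrank := units_rank_cyclotomic (p := p) (K := K) hp
  set ℓ := phi (indPl p lam) with hℓ
  have hℓcls : ∀ u : K, u ≠ 0 → ℓ (cls p u) = ((ord lam u : ℤ) : ZMod p) := fun u hu => by
    rw [hℓ, phi_cls _ hu, pair_indPl]
  have hsu : ∀ u : K, IsSU0 p St u → IsSUnit S' u := fun u hu =>
    ⟨hu.1, fun v hv => hu.2.1 v (fun h => hv (Finset.mem_insert_of_mem h))
      (fun h => hv (by rw [hlamu v h]; exact Finset.mem_insert_self _ _))⟩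
  have hxli : LinearIndependent (ZMod p) (fun i => cls p (x i)) :=
    (indepModP_iff x hind.1).mp hind
  -- upper bound
  have hd : d ≤ (p - 1) / 2 + St.card := by
    have h1 : IndepModP p (Fin.cons (1 - ζ) x : Fin (d + 1) → K) := by
      have hne : ∀ i, (Fin.cons (1 - ζ) x : Fin (d + 1) → K) i ≠ 0 := by
        intro i
        refine Fin.cases ?_ (fun i => ?_) i
        · simpa using hz0
        · simpa using hind.1 i
      rw [indepModP_iff _ hne]
      have h2 : (fun i => cls p ((Fin.cons (1 - ζ) x : Fin (d + 1) → K) i))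
          = Fin.cons (cls p (1 - ζ)) (fun i => cls p (x i)) := by
        funext i
        refine Fin.cases ?_ (fun i => ?_) i <;> simp
      rw [h2]
      refine linearIndependent_finCons.mpr ⟨hxli, fun hmem => ?_⟩
      have h3 : Submodule.span (ZMod p) (Set.range fun i => cls p (x i)) ≤ LinearMap.ker ℓ := by
        rw [Submodule.span_le]
        rintro _ ⟨i, rfl⟩
        simp only [SetLike.mem_coe, LinearMap.mem_ker]
        rw [hℓcls _ (hx i).1]
        exact (ZMod.intCast_zmod_eq_zero_iff_dvd _ p).mpr ((hx i).2.2 lam hlam)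
      have h4 := h3 hmem
      rw [LinearMap.mem_ker, hℓcls _ hz0, hlam1] at h4
      simp at h4
    have h5 := sunit_indep_card_le hζ S' (Fin.cons (1 - ζ) x : Fin (d + 1) → K) (by
      intro i
      refine Fin.cases ?_ (fun i => ?_) i
      · refine ⟨by simpa using hz0, fun v hv => ?_⟩
        simp only [Fin.cons_zero]
        exact hlam0 v (fun h => hv (by rw [h]; exact Finset.mem_insert_self _ _))
      · simpa using hsu _ (hx i)) h1
    simp only [Fintype.card_fin] at h5
    omega
  -- lower bound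
  obtain ⟨z, hzS, hzind⟩ := exists_sunit_indep (p := p) hζ S'
  have hzli := (indepModP_iff z hzind.1).mp hzind
  set B := Submodule.span (ZMod p) (Set.range fun i => cls p (z i)) with hB
  have hBfin : Module.Finite (ZMod p) B := FiniteDimensional.span_of_finite _ (Set.finite_range _)
  have hBrank : Module.finrank (ZMod p) B = Units.rank K + 1 + S'.card := by
    rw [hB, finrank_span_eq_card hzli, Fintype.card_fin]
  set C := (LinearMap.ker (ℓ.domRestrict B)).map B.subtype with hC
  have hCrank : (p - 1) / 2 + St.card ≤ Module.finrank (ZMod p) C := by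
    rw [hC, Submodule.finrank_map_subtype_eq]
    have h1 := LinearMap.finrank_range_add_finrank_ker (ℓ.domRestrict B)
    have h2 : Module.finrank (ZMod p) (LinearMap.range (ℓ.domRestrict B)) ≤ 1 := by
      have := Submodule.finrank_le (LinearMap.range (ℓ.domRestrict B))
      rwa [Module.finrank_self] at this
    omega
  have hCmem : ∀ c ∈ C, ∃ u : K, IsSU0 p St u ∧ cls p u = c := by
    intro c hc
    obtain ⟨b, hb, rfl⟩ := hc
    have hBle : B ≤ subspaceOf (p := p) (IsSUnit S') ⟨one_ne_zero, fun v _ => ord_one v⟩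
        (fun a b ha0 hb0 ha hb => ⟨mul_ne_zero ha0 hb0, fun v hv => by
          rw [ord_mul v ha0 hb0, ha.2 v hv, hb.2 v hv]; rfl⟩) := by
      rw [hB, Submodule.span_le]
      rintro _ ⟨i, rfl⟩
      exact ⟨z i, hzind.1 i, hzS i, rfl⟩
    obtain ⟨u, hu0, hu, hucls⟩ := hBle b.2
    refine ⟨u, ⟨hu0, fun v h1 h2 => hu.2 v (fun h => ?_), fun v hv => ?_⟩, hucls⟩
    · rcases Finset.mem_insert.mp h with h | h
      · exact h2 (h ▸ hlam)
      · exact h1 h
    · rw [hlamu v hv]
      have h3 : ℓ (b : ModP p K) = 0 := hb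
      rw [← hucls, hℓcls u hu0] at h3
      exact (ZMod.intCast_zmod_eq_zero_iff_dvd _ p).mp h3
  obtain ⟨e, he⟩ : ∃ e, d + e = (p - 1) / 2 + St.card := ⟨_, Nat.add_sub_cancel' hd⟩
  obtain ⟨y, hyC, hy⟩ := exists_append_linearIndependent C e d _ hxli (by omega)
  choose u hu hucls using fun j => hCmem (y j) (hyC j)
  refine ⟨e, u, he, hu, ?_⟩
  have hne : ∀ i, Fin.append x u i ≠ 0 := by
    intro i
    refine Fin.addCases (fun i => ?_) (fun j => ?_) i
    · simpa using hind.1 i
    · simpa using (hu j).1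
  rw [indepModP_iff _ hne, cls_comp_append]
  have : (fun j => cls p (u j)) = y := funext hucls
  rw [this]
  exact hy

/-- Choice of the auxiliary set `T`. -/
theorem exists_T (hp : p ≠ 2) {ζ : K} (hζ : IsPrimitiveRoot ζ p) (St : Finset (Pl K))
    (hSt : ∀ v ∈ St, ¬ Above p v) {d : ℕ} (x : Fin d → K) (hx : ∀ i, IsSU0 p St (x i))
    (hind : IndepModP p x) (avoid : Finset (Pl K)) :
    ∃ T : Finset (Pl K), T.card + d = (p - 1) / 2 + St.card ∧
      (∀ v ∈ T, ¬ Above p v ∧ v ∉ St ∧ v ∉ avoid) ∧ (∀ v ∈ T, ∀ i, LocPow p v 1 (x i)) ∧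
      SurjOn p St T := by
  classical
  have hpp : p.Prime := Fact.out
  obtain ⟨e, y, he, hy, hxy⟩ := exists_su0_basis hp hζ St hSt x hx hind
  choose w hw1 hw2 hw3 hw4 hw5 using fun j : Fin e =>
    exists_place_sep hζ (Fin.append x y) hxy (Fin.natAdd d j) (St ∪ avoid)
  have hwx : ∀ j i, LocPow p (w j) 1 (x i) := fun j i => by
    have := hw4 j (Fin.castAdd e i) (by
      intro h
      have := congrArg Fin.val h
      simp at this
      omega)
    simpa using this
  have hwy : ∀ j j', j' ≠ j → LocPow p (w j) 1 (y j') := fun j j' hjj' => by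
    have := hw4 j (Fin.natAdd d j') (by
      intro h
      apply hjj'
      have := congrArg Fin.val h
      simp at this
      exact Fin.ext this)
    simpa using this
  have hwn : ∀ j, ¬ LocPow p (w j) 1 (y j) := fun j => by simpa using hw5 j
  have hwu : ∀ j j', ord (w j) (y j') = 0 := fun j j' => by simpa using hw3 j (Fin.natAdd d j')
  have hinj : Function.Injective w := by
    intro j j' h
    by_contra hne
    apply hwn j
    rw [h]
    exact hwy j' j hne
  refine ⟨Finset.univ.image w, ?_, ?_, ?_, ?_⟩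
  · rw [Finset.card_image_of_injective _ hinj, Finset.card_univ, Fintype.card_fin]; omega
  · intro v hv
    obtain ⟨j, -, rfl⟩ := Finset.mem_image.mp hv
    have := hw1 j
    rw [Finset.mem_union, not_or] at this
    exact ⟨hw2 j, this.1, this.2⟩
  · intro v hv i
    obtain ⟨j, -, rfl⟩ := Finset.mem_image.mp hv
    exact hwx j i
  · intro c hc
    have hc' : ∀ j, c (w j) ≠ 0 ∧ ord (w j) (c (w j)) = 0 := fun j =>
      hc (w j) (Finset.mem_image_of_mem w (Finset.mem_univ j))
    choose a _ ha using fun j => exists_pow_mul_locPow hpp hζ (w j) (hw2 j) (hy j).1 (hwu j j)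
      (hwn j) (hc' j).1 (hc' j).2
    refine ⟨∏ j, y j ^ a j, IsSU0.prod _ _ (fun j _ => (hy j).pow _), ?_⟩
    intro v hv
    obtain ⟨j, -, rfl⟩ := Finset.mem_image.mp hv
    rw [← Finset.mul_prod_erase Finset.univ _ (Finset.mem_univ j), mul_right_comm]
    refine (ha j).mul (LocPow.prod _ _ fun j' hj' => (hwy j j' (Finset.ne_of_mem_erase hj')).pow _)

end Fermat.Agent.S14
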