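import Fermat.Agent.S14.Count.Defs

set_option autoImplicit false
set_option linter.unusedSectionVars false
set_option linter.unusedVariables false

/-!
# S14 / ST: linear functionals on `ModP` induced by functions on places; abstract Steinitz
-/

namespace Fermat.Agent.S14

open IsDedekindDomain NumberField

section phi

variable {p : ℕ} [Fact p.Prime] {F : Type*} [Field F] [NumberField F]

lemma isPPow_div_of_cls_eq {x y : F} (hx : x ≠ 0) (hy : y ≠ 0) (h : cls p x = cls p y) :
    IsPPow p (x / y) := by
  rw [← cls_eq_zero_iff (div_ne_zero hx hy), div_eq_mul_inv, cls_mul hx (inv_ne_zero hy), cls_inv, h]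
  exact add_neg_cancel (G := ModP p F) _

lemma pair_eq_of_cls_eq (m : Pl F → ZMod p) {x y : F} (hx : x ≠ 0) (hy : y ≠ 0)
    (h : cls p x = cls p y) : pair m x = pair m y := by
  have h1 := pair_of_isPPow m (isPPow_div_of_cls_eq hx hy h)
  rw [pair_div m hx hy] at h1
  exact sub_eq_zero.mp h1

/-- a representative of a class. -/
noncomputable def rep (a : ModP p F) : F := (cls_surjective a).choose

lemma rep_ne_zero (a : ModP p F) : rep a ≠ 0 := (cls_surjective a).choose_spec.1

lemma cls_rep (a : ModP p F) : cls p (rep a) = a := (cls_surjective a).choose_spec.2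

/-- the linear functional `cls x ↦ pair m x`. -/
noncomputable def phi (m : Pl F → ZMod p) : ModP p F →ₗ[ZMod p] ZMod p where
  toFun a := pair m (rep a)
  map_add' a b := by
    rw [← pair_mul m (rep_ne_zero a) (rep_ne_zero b)]
    apply pair_eq_of_cls_eq m (rep_ne_zero _) (mul_ne_zero (rep_ne_zero a) (rep_ne_zero b))
    rw [cls_rep, cls_mul (rep_ne_zero a) (rep_ne_zero b), cls_rep, cls_rep]
  map_smul' c a := by
    have h1 : pair m (rep (c • a)) = pair m (rep a ^ c.val) := by
      apply pair_eq_of_cls_eq m (rep_ne_zero _) (pow_ne_zero _ (rep_ne_zero a))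
      rw [cls_rep, cls_pow, cls_rep]
      simp
    rw [h1, pair_pow]
    simp

lemma phi_cls (m : Pl F → ZMod p) {x : F} (hx : x ≠ 0) : phi m (cls p x) = pair m x :=
  pair_eq_of_cls_eq m (rep_ne_zero _) hx (cls_rep _)

end phi

section steinitz

variable {k V : Type*} [Field k] [AddCommGroup V] [Module k V]

/-- Steinitz exchange in the form needed: an independent family `x` of size `d` can be extended
by `e` vectors from a subspace `C` of dimension at least `d + e`. -/
theorem exists_append_linearIndependent (C : Submodule k V) :
    ∀ (e d : ℕ) (x : Fin d → V), LinearIndependent k x → d + e ≤ Module.finrank k C →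
      ∃ y : Fin e → V, (∀ j, y j ∈ C) ∧ LinearIndependent k (Fin.append x y) := by
  intro e
  induction e with
  | zero =>
    intro d x hx _
    refine ⟨Fin.elim0, fun j => j.elim0, ?_⟩
    rw [Fin.append_elim0]
    exact hx.comp _ (Fin.cast_injective _)
  | succ e ih =>
    intro d x hx hD
    have hex : ∃ a ∈ C, a ∉ Submodule.span k (Set.range x) := by
      by_contra hcon
      push Not at hcon
      have hle : C ≤ Submodule.span k (Set.range x) := hcon
      have : Module.Finite k (Submodule.span k (Set.range x)) :=
        FiniteDimensional.span_of_finite k (Set.finite_range x)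
      have h1 := Submodule.finrank_mono hle
      have h2 := finrank_range_le_card (R := k) x
      simp only [Fintype.card_fin] at h2
      unfold Set.finrank at h2
      omega
    obtain ⟨a, haC, ha⟩ := hex
    have hx' : LinearIndependent k (Fin.snoc x a : Fin (d + 1) → V) :=
      linearIndependent_finSnoc.mpr ⟨hx, ha⟩
    obtain ⟨y, hyC, hy⟩ := ih (d + 1) (Fin.snoc x a) hx' (by omega)
    refine ⟨Fin.cons a y, ?_, ?_⟩
    · intro j
      refine Fin.cases ?_ (fun i => ?_) j
      · simpa using haC
      · simpa using hyC i
    · rw [Fin.append_right_cons]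
      exact hy.comp _ (Fin.cast_injective _)

end steinitz

end Fermat.Agent.S14
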