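import Fermat.Agent.S14.Count.Lemma
import Fermat.Agent.S14.Count.Phi

set_option autoImplicit false
set_option linter.unusedSectionVars false
set_option linter.unusedVariables false

/-!
# S14 / ST2: Chevalley's count
-/

namespace Fermat.Agent.S14

open IsDedekindDomain NumberField

section abstract

/-- dimension count with functionals: `N` vectors independent modulo `W`, `k'` independent
functionals killing `W` and the vectors; then `k' + N ≤ dim V / W`. -/
theorem card_add_card_le_finrank_quot {k V : Type*} [Field k] [AddCommGroup V] [Module k V]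
    (W : Submodule k V) [Module.Finite k (V ⧸ W)] {N k' : ℕ} (s : Fin N → V)
    (hs : LinearIndependent k (fun j => W.mkQ (s j))) (φ : Fin k' → (V →ₗ[k] k))
    (hφ : LinearIndependent k φ) (hφW : ∀ i, ∀ w ∈ W, φ i w = 0) (hφs : ∀ i j, φ i (s j) = 0) :
    k' + N ≤ Module.finrank k (V ⧸ W) := by
  classical
  set U : Submodule k (V ⧸ W) := Submodule.span k (Set.range fun j => W.mkQ (s j)) with hU
  have hUrank : Module.finrank k U = N := by
    rw [hU, finrank_span_eq_card hs, Fintype.card_fin]
  have hle : ∀ i, W ≤ LinearMap.ker (φ i) := fun i w hw => LinearMap.mem_ker.mpr (hφW i w hw)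
  set ψ : Fin k' → Module.Dual k (V ⧸ W) := fun i => W.liftQ (φ i) (hle i) with hψ
  have hψli : LinearIndependent k ψ := by
    refine Fintype.linearIndependent_iff.mpr fun g hg i => ?_
    refine Fintype.linearIndependent_iff.mp hφ g ?_ i
    ext x
    have := congrArg (fun F : Module.Dual k (V ⧸ W) => F (W.mkQ x)) hg
    simpa [hψ, LinearMap.sum_apply] using this
  have hψmem : ∀ i, ψ i ∈ U.dualAnnihilator := by
    intro i
    rw [Submodule.mem_dualAnnihilator]
    intro w hw
    induction hw using Submodule.span_induction with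
    | mem x hx =>
      obtain ⟨j, rfl⟩ := hx
      simpa [hψ] using hφs i j
    | zero => simp
    | add x y _ _ hx hy => rw [map_add, hx, hy, add_zero]
    | smul a x _ hx => rw [map_smul, hx, smul_zero]
  have h1 : k' ≤ Module.finrank k U.dualAnnihilator := by
    have hli : LinearIndependent k (fun i => (⟨ψ i, hψmem i⟩ : U.dualAnnihilator)) := by
      refine LinearIndependent.of_comp U.dualAnnihilator.subtype ?_
      exact hψli
    simpa using hli.fintype_card_le_finrank
  have h2 := Subspace.finrank_add_finrank_dualAnnihilator_eq U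
  omega

/-- bounding the dimension of a quotient by a classifying map to a finite type. -/
theorem finrank_quot_le_of_map {p : ℕ} [Fact p.Prime] {V : Type*} [AddCommGroup V]
    [Module (ZMod p) V] (W : Submodule (ZMod p) V) {X : Type*} [Fintype X] (t : V → X)
    (ht : ∀ a b, t a = t b → a - b ∈ W) {D : ℕ} (hX : Fintype.card X ≤ p ^ D) :
    Module.Finite (ZMod p) (V ⧸ W) ∧ Module.finrank (ZMod p) (V ⧸ W) ≤ D := by
  classical
  have hpp : p.Prime := Fact.out
  have hinj : Function.Injective (fun q : V ⧸ W => t (Quotient.out q)) := by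
    intro q q' h
    have h1 := ht _ _ h
    have h2 : W.mkQ (Quotient.out q) = W.mkQ (Quotient.out q') := by
      rw [← sub_eq_zero, ← map_sub, Submodule.mkQ_apply, Submodule.Quotient.mk_eq_zero]
      exact h1
    have h3 : ∀ q : V ⧸ W, W.mkQ (Quotient.out q) = q := fun q => Quotient.out_eq q
    rwa [h3, h3] at h2
  have hfin : Finite (V ⧸ W) := Finite.of_injective _ hinj
  have hmf : Module.Finite (ZMod p) (V ⧸ W) := Module.Finite.of_finite
  refine ⟨hmf, ?_⟩
  have : Fintype (V ⧸ W) := Fintype.ofFinite _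
  have h1 : Fintype.card (V ⧸ W) ≤ Fintype.card X := Fintype.card_le_of_injective _ hinj
  have h2 := Module.card_eq_pow_finrank (K := ZMod p) (V := V ⧸ W)
  rw [ZMod.card] at h2
  rw [h2] at h1
  exact (Nat.pow_le_pow_iff_right hpp.one_lt).mp (h1.trans hX)

end abstract

lemma pair_sum_smul_left {p : ℕ} {F : Type*} [Field F] [NumberField F] {ι : Type*}
    (t : Finset ι) (g : ι → ZMod p) (f : ι → Pl F → ZMod p) {x : F} (hx : x ≠ 0) :
    pair (∑ i ∈ t, g i • f i) x = ∑ i ∈ t, g i * pair (f i) x := by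
  classical
  induction t using Finset.induction_on with
  | empty => simpa using pair_zero_left x
  | insert a t ha ih =>
    rw [Finset.sum_insert ha, Finset.sum_insert ha, pair_add_left _ _ hx, pair_smul_left, ih]

variable {p : ℕ} [Fact p.Prime] {K : Type*} [Field K] [NumberField K]
  [IsCyclotomicExtension {p} ℚ K]

/-- **Chevalley count** (ST). -/
theorem chevalley_count (hp : p ≠ 2) {ζ : K} (hζ : IsPrimitiveRoot ζ p) (St T : Finset (Pl K))
    (hSt : ∀ v ∈ St, ¬ Above p v) (hT : ∀ v ∈ T, ¬ Above p v ∧ v ∉ St) (hgen : GenCl St)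
    (hsurj : SurjOn p St T) {k : ℕ} (f : Fin k → Pl K → ZMod p)
    (hf : ∀ i, ClassFn p St T (f i)) (hli : LinearIndependent (ZMod p) f) :
    k + T.card ≤ (p - 1) / 2 + St.card := by
  classical
  have hpp : p.Prime := Fact.out
  obtain ⟨lam, hlam, hlamu, hlam1, hlam0, -, -⟩ := exists_lam hζ
  set W : Submodule (ZMod p) (ModP p K) := subspaceOf (p := p)
    (fun γ : K => (∀ v ∈ St, LocPow p v 1 γ) ∧ ∀ v, Above p v → LocPow p v p γ)
    ⟨fun v _ => locPow_one v 1, fun v _ => locPow_one v p⟩
    (fun x y _ _ hx hy => ⟨fun v hv => (hx.1 v hv).mul (hy.1 v hv),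
      fun v hv => (hx.2 v hv).mul (hy.2 v hv)⟩) with hW
  -- membership does not depend on the representative
  have hWmem : ∀ x : K, x ≠ 0 → cls p x ∈ W →
      (∀ v ∈ St, LocPow p v 1 x) ∧ ∀ v, Above p v → LocPow p v p x := by
    rintro x hx0 ⟨x', hx'0, hx', hcls⟩
    have h1 : IsPPow p (x / x') := isPPow_div_of_cls_eq hx0 hx'0 hcls.symm
    have h2 : x = x' * (x / x') := by field_simp
    have h3 : x / x' ≠ 0 := div_ne_zero hx0 hx'0
    refine ⟨fun v hv => ?_, fun v hv => ?_⟩
    · have := (hx'.1 v hv).mul (locPow_of_isPPow v 1 h3 h1)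
      rwa [← h2] at this
    · have := (hx'.2 v hv).mul (locPow_of_isPPow v p h3 h1)
      rwa [← h2] at this
  -- the index bound
  choose R hRcard hR0 hR using fun v : St => tame_index_le hζ v.1 (hSt v.1 v.2)
  obtain ⟨Rl, hRlcard, hRl0, hRl⟩ := lam_index_le hp lam hlam
  choose r hrmem hr using fun (v : St) (a : ModP p K) => hR v (rep a) (rep_ne_zero a)
  choose rl hrlmem hrl using fun a : ModP p K => hRl (rep a) (rep_ne_zero a)
  let X := (∀ v : St, R v) × Rl
  let t : ModP p K → X := fun a => (fun v => ⟨r v a, hrmem v a⟩, ⟨rl a, hrlmem a⟩)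
  have ht : ∀ a b, t a = t b → a - b ∈ W := by
    intro a b hab
    have h1 : ∀ v : St, r v a = r v b := fun v =>
      congrArg (fun z : X => ((z.1 v : R v) : K)) hab
    have h2 : rl a = rl b := congrArg (fun z : X => ((z.2 : Rl) : K)) hab
    refine ⟨rep a / rep b, div_ne_zero (rep_ne_zero a) (rep_ne_zero b),
      ⟨fun v hv => ?_, fun v hv => ?_⟩, ?_⟩
    · have h3 := (hr ⟨v, hv⟩ a).div le_rfl (hr ⟨v, hv⟩ b)
      rw [h1 ⟨v, hv⟩] at h3
      rwa [div_div_div_cancel_right₀ (hR0 ⟨v, hv⟩ _ (hrmem ⟨v, hv⟩ b))] at h3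
    · rw [hlamu v hv]
      have h3 := (hrl a).div hpp.one_le (hrl b)
      rw [h2] at h3
      rwa [div_div_div_cancel_right₀ (hRl0 _ (hrlmem b))] at h3
    · rw [div_eq_mul_inv, cls_mul (rep_ne_zero a) (inv_ne_zero (rep_ne_zero b)), cls_inv, cls_rep,
        cls_rep]
      exact (sub_eq_add_neg (G := ModP p K) a b).symm
  have hXcard : Fintype.card X ≤ p ^ (2 * St.card + p) := by
    rw [Fintype.card_prod, Fintype.card_pi]
    simp only [Fintype.card_coe]
    calc (∏ v : St, (R v).card) * Rl.card ≤ (∏ v : St, p ^ 2) * p ^ p :=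
          Nat.mul_le_mul (Finset.prod_le_prod' fun v _ => hRcard v) hRlcard
      _ = p ^ (2 * St.card + p) := by
          rw [Finset.prod_const, Finset.card_univ, Fintype.card_coe, ← pow_mul, pow_add]
  obtain ⟨hfin, hrank⟩ := finrank_quot_le_of_map W t ht hXcard
  -- the `Σ`-units
  set Sg : Finset (Pl K) := insert lam (St ∪ T) with hSg
  have hdisj : Disjoint St T := Finset.disjoint_right.mpr fun v hv => (hT v hv).2
  have hlamn : lam ∉ St ∪ T := by
    intro h
    rcases Finset.mem_union.mp h with h | h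
    · exact hSt lam h hlam
    · exact (hT lam h).1 hlam
  have hSgcard : Sg.card = St.card + T.card + 1 := by
    rw [hSg, Finset.card_insert_of_notMem hlamn, Finset.card_union_of_disjoint hdisj]
  have hSgn : ∀ v, v ∉ St → v ∉ T → ¬ Above p v → v ∉ Sg := by
    intro v h1 h2 h3 h
    rcases Finset.mem_insert.mp h with h | h
    · exact h3 (h ▸ hlam)
    · rcases Finset.mem_union.mp h with h | h
      · exact h1 h
      · exact h2 h
  obtain ⟨s, hsS, hsind⟩ := exists_sunit_indep (p := p) hζ Sg
  have hsW : LinearIndependent (ZMod p) (fun j => W.mkQ (cls p (s j))) := by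
    refine Fintype.linearIndependent_iff.mpr fun g hg j => ?_
    have h1 : ∑ j, g j • cls p (s j) ∈ W := by
      rw [← Submodule.Quotient.mk_eq_zero, ← Submodule.mkQ_apply, map_sum]
      simpa using hg
    set y := ∏ j, s j ^ ((g j).val : ℤ) with hy
    have hy0 : y ≠ 0 := Finset.prod_ne_zero_iff.mpr fun j _ => zpow_ne_zero _ (hsind.1 j)
    have hycls : cls p y = ∑ j, g j • cls p (s j) := by
      rw [hy, cls_prod_zpow s hsind.1]
      refine Finset.sum_congr rfl fun j _ => ?_
      simp
    have hyW := hWmem y hy0 (hycls ▸ h1)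
    have hyu : ∀ v, v ∉ St → v ∉ T → ¬ Above p v → ord v y = 0 := by
      intro v h1 h2 h3
      rw [hy, ord_prod v _ _ (fun j _ => zpow_ne_zero _ (hsind.1 j))]
      refine Finset.sum_eq_zero fun j _ => ?_
      rw [ord_zpow, (hsS j).2 v (hSgn v h1 h2 h3), mul_zero]
    have hpow := chevalley_lemma hp hζ St T hSt hT hgen hsurj y hy0 hyu hyW.1 hyW.2
    have h2 := (ZMod.intCast_zmod_eq_zero_iff_dvd _ p).mpr (hsind.2 _ hpow j)
    simpa using h2
  -- the functionals
  have hφli : LinearIndependent (ZMod p) (fun i => phi (f i)) := by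
    refine Fintype.linearIndependent_iff.mpr fun g hg i => ?_
    refine Fintype.linearIndependent_iff.mp hli g ?_ i
    set m := ∑ i, g i • f i with hm
    have hpair : ∀ γ : K, γ ≠ 0 → pair m γ = 0 := by
      intro γ hγ
      have := congrArg (fun F : ModP p K →ₗ[ZMod p] ZMod p => F (cls p γ)) hg
      simp only [LinearMap.sum_apply, LinearMap.smul_apply, phi_cls _ hγ, LinearMap.zero_apply,
        smul_eq_mul] at this
      rw [hm, pair_sum_smul_left _ _ _ hγ]
      exact this
    have hmSt : ∀ v ∈ St, m v = 0 := by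
      intro v hv
      rw [hm, Finset.sum_apply]
      refine Finset.sum_eq_zero fun i _ => ?_
      rw [Pi.smul_apply, (hf i).1 v hv, smul_zero]
    funext v0
    simp only [Pi.zero_apply]
    by_cases hv0 : v0 ∈ St
    · exact hmSt v0 hv0
    obtain ⟨γ, hγ0, hγ1, hγ⟩ := hgen v0 hv0
    have h1 := hpair γ hγ0
    rw [pair_eq_single m γ v0 (fun v hv => by
      by_cases hvSt : v ∈ St
      · exact Or.inr (hmSt v hvSt)
      · exact Or.inl (hγ v hvSt hv)), hγ1] at h1
    simpa using h1
  have hφW : ∀ i, ∀ w ∈ W, phi (f i) w = 0 := by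
    rintro i _ ⟨x, hx0, hx, rfl⟩
    rw [phi_cls _ hx0]
    exact (hf i).2.2.2 x hx0 hx.1 hx.2
  have hφs : ∀ i j, phi (f i) (cls p (s j)) = 0 := by
    intro i j
    rw [phi_cls _ (hsind.1 j), pair_eq_sum (f i) (s j) ∅ (fun v _ => by
      by_cases h1 : v ∈ St
      · exact Or.inr ((hf i).1 v h1)
      by_cases h2 : v ∈ T
      · exact Or.inr ((hf i).2.1 v h2)
      by_cases h3 : Above p v
      · exact Or.inr ((hf i).2.2.1 v h3)
      · exact Or.inl ((hsS j).2 v (hSgn v h1 h2 h3)))]
    simp
  have hmain := card_add_card_le_finrank_quot W (fun j => cls p (s j)) hsW (fun i => phi (f i))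
    hφli hφW hφs
  have hrk := units_rank_cyclotomic (p := p) (K := K) hp
  have hodd : p % 2 = 1 := hpp.eq_two_or_odd.resolve_left hp
  omega

end Fermat.Agent.S14
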