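import Fermat.Agent.S14.Count.Defs

set_option autoImplicit false
set_option linter.unusedSectionVars false
set_option linter.unusedVariables false

/-!
# S14 / ST1: Chevalley's lemma
-/

namespace Fermat.Agent.S14

open IsDedekindDomain NumberField

variable {p : ℕ} [Fact p.Prime] {K : Type*} [Field K] [NumberField K]
  [IsCyclotomicExtension {p} ℚ K]

/-- evaluation of the pairing when the divisor is concentrated at one place (modulo the zeros
of `m`). -/
lemma pair_eq_single {F : Type*} [Field F] [NumberField F] (m : Pl F → ZMod p) (x : F) (v0 : Pl F)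
    (hs : ∀ v, v ≠ v0 → ord v x = 0 ∨ m v = 0) :
    pair m x = ((ord v0 x : ℤ) : ZMod p) * m v0 := by
  rw [pair_eq_sum m x {v0} (fun v hv => hs v (by simpa using hv))]
  simp

/-- **Chevalley's lemma** (P1): a `St ∪ T ∪ {λ}`-unit which is a local `p`-th power on `St` and
primary at `λ` is a `p`-th power.  (Uses `firstIneq`.) -/
theorem chevalley_lemma (hp : p ≠ 2) {ζ : K} (hζ : IsPrimitiveRoot ζ p) (St T : Finset (Pl K))
    (hSt : ∀ v ∈ St, ¬ Above p v) (hT : ∀ v ∈ T, ¬ Above p v ∧ v ∉ St) (hgen : GenCl St)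
    (hsurj : SurjOn p St T) (y : K) (hy0 : y ≠ 0)
    (hyu : ∀ v, v ∉ St → v ∉ T → ¬ Above p v → ord v y = 0)
    (hySt : ∀ v ∈ St, LocPow p v 1 y) (hyl : ∀ v, Above p v → LocPow p v p y) : IsPPow p y := by
  classical
  have hpp : p.Prime := Fact.out
  by_contra hy
  obtain ⟨m, hm0, hma, hmb, hmc⟩ := firstIneq hp y hy0 hy hyl
  obtain ⟨lam, hlam, hlamu, hlam1, hlam0, -, -⟩ := exists_lam hζ
  apply hm0
  -- the ramified places lie in `T`
  have hTy : ∀ v, ¬ (p : ℤ) ∣ ord v y → v ∈ T := by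
    intro v hv
    by_contra hvT
    apply hv
    by_cases hvSt : v ∈ St
    · exact (hySt v hvSt).dvd_ord le_rfl
    by_cases hvp : Above p v
    · exact (hyl v hvp).dvd_ord hpp.one_le
    · rw [hyu v hvSt hvT hvp]; exact dvd_zero _
  have hmSt : ∀ v ∈ St, m v = 0 := fun v hv => hmb v (hSt v hv) (hySt v hv)
  have hz0 : (1 - ζ) ≠ 0 := sub_ne_zero.mpr (hζ.ne_one hpp.one_lt).symm
  -- `m` vanishes at `λ`
  have hmlam : m lam = 0 := by
    obtain ⟨u, ⟨hu0, huu, hul⟩, huT⟩ := hsurj (fun _ => 1 - ζ) (fun v hv =>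
      ⟨hz0, hlam0 v (fun h => (hT v hv).1 (h ▸ hlam))⟩)
    have h1 := hmc (u * (1 - ζ)) (mul_ne_zero hu0 hz0) (fun v hv => huT v (hTy v hv))
    rw [pair_eq_single m _ lam] at h1
    · rw [ord_mul _ hu0 hz0, hlam1] at h1
      obtain ⟨c, hc⟩ := hul lam hlam
      rw [hc] at h1
      simpa using h1
    · intro v hv
      by_cases hvSt : v ∈ St
      · right; exact hmSt v hvSt
      · left
        rw [ord_mul _ hu0 hz0, hlam0 v hv, huu v hvSt (fun h => hv (hlamu v h))]
        rfl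
  funext v0
  simp only [Pi.zero_apply]
  by_cases hv0St : v0 ∈ St
  · exact hmSt v0 hv0St
  by_cases hv0l : v0 = lam
  · rw [hv0l]; exact hmlam
  by_cases hv0y : (p : ℤ) ∣ ord v0 y
  swap
  · exact hma v0 hv0y
  have hv0p : ¬ Above p v0 := fun h => hv0l (hlamu v0 h)
  obtain ⟨γ, hγ0, hγ1, hγ⟩ := hgen v0 hv0St
  obtain ⟨u, ⟨hu0, huu, hul⟩, huT⟩ := hsurj (fun v => if v = v0 then 1 else γ) (fun v hv => by
    by_cases h : v = v0
    · simp [h, ord_one]
    · simp only [h, if_false]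
      exact ⟨hγ0, hγ v (hT v hv).2 h⟩)
  have h1 := hmc (u * γ) (mul_ne_zero hu0 hγ0) (fun v hv => by
    have h2 := huT v (hTy v hv)
    have h3 : v ≠ v0 := fun h => hv (h ▸ hv0y)
    simpa [h3] using h2)
  rw [pair_eq_single m _ v0] at h1
  · rw [ord_mul _ hu0 hγ0, hγ1, huu v0 hv0St hv0p] at h1
    simpa using h1
  · intro v hv
    by_cases hvSt : v ∈ St
    · right; exact hmSt v hvSt
    by_cases hvl : v = lam
    · right; rw [hvl]; exact hmlam
    · left
      rw [ord_mul _ hu0 hγ0, hγ v hvSt hv, huu v hvSt (fun h => hvl (hlamu v h))]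
      rfl

end Fermat.Agent.S14
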