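import Fermat.Agent.S14.FirstIneq
import Fermat.Agent.S14.SUnits
import Fermat.Agent.S14.Lambda
import Fermat.Agent.S14.Sep

set_option autoImplicit false

/-!
# S14 / ST: Chevalley's counting argument, definitions
-/

namespace Fermat.Agent.S14

open IsDedekindDomain NumberField

variable {p : ℕ} [Fact p.Prime] {K : Type*} [Field K] [NumberField K]
  [IsCyclotomicExtension {p} ℚ K]

/-- `u` is a unit outside `St ∪ {λ}` and `p ∣ ord_λ u`. -/
def IsSU0 (p : ℕ) (St : Finset (Pl K)) (u : K) : Prop :=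
  u ≠ 0 ∧ (∀ v, v ∉ St → ¬ Above p v → ord v u = 0) ∧ ∀ v, Above p v → (p : ℤ) ∣ ord v u

/-- Functions on places vanishing on `St ∪ T ∪ {λ}` whose divisor pairing kills every `γ` that is
a local `p`-th power on `St` and primary at `λ`. -/
def ClassFn (p : ℕ) (St T : Finset (Pl K)) (m : Pl K → ZMod p) : Prop :=
  (∀ v ∈ St, m v = 0) ∧ (∀ v ∈ T, m v = 0) ∧ (∀ v, Above p v → m v = 0) ∧
  ∀ γ : K, γ ≠ 0 → (∀ v ∈ St, LocPow p v 1 γ) → (∀ v, Above p v → LocPow p v p γ) → pair m γ = 0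

/-- The `IsSU0`-elements surject onto `∏_{v ∈ T} (units at v) / (local p-th powers)`. -/
def SurjOn (p : ℕ) (St T : Finset (Pl K)) : Prop :=
  ∀ c : Pl K → K, (∀ v ∈ T, c v ≠ 0 ∧ ord v (c v) = 0) →
    ∃ u : K, IsSU0 p St u ∧ ∀ v ∈ T, LocPow p v 1 (u * c v)

end Fermat.Agent.S14
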